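import Mathlib.Analysis.Complex.Polynomial.Basic
import Mathlib.FieldTheory.IntermediateField.Adjoin.Algebra
import Mathlib.FieldTheory.Galois.Basic
import Mathlib.RingTheory.IntegralClosure.IntegrallyClosed
import Mathlib.Algebra.Polynomial.SpecificDegree
import Mathlib.Data.Nat.Squarefree
import Mathlib.RingTheory.Int.Basic
import Mathlib.RingTheory.Polynomial.RationalRoot

/-!
# Fields generated by square roots of integers

In such a field built on integers prime to an odd prime `p`, an element `v` with `p v ^ 2` integral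
is integral up to a factor prime to `p`.
-/

set_option autoImplicit false

noncomputable section

namespace FA.QuadraticNorthcott

open Polynomial IntermediateField

/-- The field generated by all square roots of the integers in `S`. -/
def sqrtField (S : Finset ℤ) : IntermediateField ℚ ℂ :=
  adjoin ℚ {z : ℂ | ∃ a ∈ S, z ^ 2 = (a : ℂ)}

theorem mem_sqrtField {S : Finset ℤ} {z : ℂ} {a : ℤ} (ha : a ∈ S) (hz : z ^ 2 = (a : ℂ)) :
    z ∈ sqrtField S :=
  subset_adjoin ℚ _ ⟨a, ha, hz⟩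

theorem sqrtField_mono {S T : Finset ℤ} (h : S ⊆ T) : sqrtField S ≤ sqrtField T :=
  adjoin.mono ℚ _ _ fun _ ⟨a, ha, hz⟩ => ⟨a, h ha, hz⟩

theorem sqrtField_empty : sqrtField ∅ = ⊥ := by
  rw [sqrtField, adjoin_eq_bot_iff]
  rintro z ⟨a, ha, -⟩
  exact absurd ha (Finset.notMem_empty a)

instance (S : Finset ℤ) : FiniteDimensional ℚ (sqrtField S) := by
  have hfin : {z : ℂ | ∃ a ∈ S, z ^ 2 = (a : ℂ)}.Finite := by
    refine Set.Finite.subset (S.finite_toSet.biUnion fun a _ =>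
      (((X : ℂ[X]) ^ 2 - C (a : ℂ)).roots.toFinset).finite_toSet) ?_
    rintro z ⟨a, ha, hz⟩
    refine Set.mem_biUnion ha ?_
    rw [Finset.mem_coe, Multiset.mem_toFinset, mem_roots (X_pow_sub_C_ne_zero two_pos _)]
    simp [hz]
  haveI := hfin.to_subtype
  refine finiteDimensional_adjoin fun z hz => ?_
  obtain ⟨a, -, hz⟩ := hz
  refine IsIntegral.of_pow two_pos ?_
  rw [hz]
  simpa using isIntegral_algebraMap (R := ℚ) (A := ℂ) (x := (a : ℚ))

instance (S : Finset ℤ) : IsGalois ℚ (sqrtField S) := by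
  classical
  obtain ⟨f, hf⟩ : ∃ f : ℚ[X], f = ∏ a ∈ S, (X ^ 2 - C (a : ℚ)) := ⟨_, rfl⟩
  have hf0 : f ≠ 0 := hf ▸ Finset.prod_ne_zero_iff.2 fun a _ => X_pow_sub_C_ne_zero two_pos _
  have hroot : f.rootSet ℂ = {z : ℂ | ∃ a ∈ S, z ^ 2 = (a : ℂ)} := by
    ext z
    rw [mem_rootSet_of_ne hf0, hf, map_prod, Finset.prod_eq_zero_iff]
    simp [sub_eq_zero]
  haveI : f.IsSplittingField ℚ (sqrtField S) := by
    rw [sqrtField, ← hroot]
    exact adjoin_rootSet_isSplittingField (IsAlgClosed.splits _)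
  haveI := Normal.of_isSplittingField (F := ℚ) (E := sqrtField S) f
  exact ⟨⟩

theorem sqrtField_insert {S : Finset ℤ} {a : ℤ} {r : ℂ} (hr : r ^ 2 = (a : ℂ)) :
    sqrtField (insert a S) = ((sqrtField S)⟮r⟯).restrictScalars ℚ := by
  refine Eq.trans ?_ (adjoin_adjoin_left ℚ {z : ℂ | ∃ b ∈ S, z ^ 2 = (b : ℂ)} {r}).symm
  refine le_antisymm (adjoin_le_iff.2 ?_) (adjoin.mono ℚ _ _ ?_)
  · rintro z ⟨b, hb, hz⟩
    rcases Finset.mem_insert.1 hb with rfl | hb
    · have h : z = r ∨ z = -r := sq_eq_sq_iff_eq_or_eq_neg.1 (hz.trans hr.symm)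
      have hr' : r ∈ adjoin ℚ ({z : ℂ | ∃ a ∈ S, z ^ 2 = (a : ℂ)} ∪ {r}) :=
        subset_adjoin ℚ _ (Or.inr rfl)
      rcases h with rfl | rfl
      · exact hr'
      · exact neg_mem hr'
    · exact subset_adjoin ℚ _ (Or.inl ⟨b, hb, hz⟩)
  · rintro z (⟨b, hb, hz⟩ | rfl)
    · exact ⟨b, Finset.mem_insert_of_mem hb, hz⟩
    · exact ⟨a, Finset.mem_insert_self _ _, hr⟩

/-- The elements of `sqrtField (insert a S)` and their flips. -/
theorem exists_flip {S : Finset ℤ} {a : ℤ} {r : ℂ} (hr : r ^ 2 = (a : ℂ))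
    (hrS : r ∉ sqrtField S) :
    ∃ φ : sqrtField (insert a S) →ₐ[ℚ] ℂ,
      (∀ z : sqrtField (insert a S), (z : ℂ) = r → φ z = -r) ∧
      (∀ z : sqrtField (insert a S), (z : ℂ) ∈ sqrtField S → φ z = z) ∧
      ∀ z : sqrtField (insert a S), ∃ x ∈ sqrtField S, ∃ y ∈ sqrtField S, (z : ℂ) = x + y * r ∧ φ z = x - y * r := by
  obtain ⟨L, hL⟩ : ∃ L, L = sqrtField S := ⟨_, rfl⟩
  rw [← hL] at hrS ⊢
  obtain ⟨g, hg⟩ : ∃ g : L[X], g = X ^ 2 - C ((a : L)) := ⟨_, rfl⟩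
  have hgr : aeval r g = 0 := by rw [hg]; simp [hr]
  have hgm : g.Monic := hg ▸ monic_X_pow_sub_C _ two_ne_zero
  have hgd : g.natDegree = 2 := hg ▸ natDegree_X_pow_sub_C
  have hint : IsIntegral L r := ⟨g, hgm, hgr⟩
  have hirr : Irreducible g := by
    refine irreducible_of_degree_le_three_of_not_isRoot ?_ fun x hx => hrS ?_
    · rw [hgd]; decide
    · rw [hg, IsRoot, eval_sub, eval_pow, eval_X, eval_C, sub_eq_zero] at hx
      have h := congrArg (fun t : L => (t : ℂ)) hx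
      rcases sq_eq_sq_iff_eq_or_eq_neg.1 (show (x : ℂ) ^ 2 = r ^ 2 by rw [hr]; simpa using h) with
        e | e
      · exact e ▸ x.2
      · rw [show r = -(x : ℂ) by rw [e, neg_neg]]
        exact neg_mem x.2
  have hmin : g = minpoly L r := minpoly.eq_of_irreducible_of_monic hirr hgr hgm
  have hroot : -r ∈ (minpoly L r).aroots ℂ := by
    rw [mem_aroots, ← hmin]
    exact ⟨hgm.ne_zero, by rw [hg]; simp [hr]⟩
  obtain ⟨ψ, hψ⟩ : ∃ ψ : L⟮r⟯ →ₐ[L] ℂ, ψ (AdjoinSimple.gen L r) = -r :=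
    ⟨(algHomAdjoinIntegralEquiv L hint).symm ⟨-r, hroot⟩,
      algHomAdjoinIntegralEquiv_symm_apply_gen L hint _⟩
  have e : sqrtField (insert a S) = (L⟮r⟯).restrictScalars ℚ := by
    subst hL
    exact sqrtField_insert hr
  have hmem : ∀ z : sqrtField (insert a S), (z : ℂ) ∈ L⟮r⟯ := fun z => e.le z.2
  obtain ⟨φ, hφ⟩ : ∃ φ : sqrtField (insert a S) →ₐ[ℚ] ℂ,
      ∀ z : sqrtField (insert a S), φ z = ψ ⟨(z : ℂ), hmem z⟩ :=
    ⟨(ψ.restrictScalars ℚ).comp (IntermediateField.inclusion e.le), fun z => rfl⟩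
  have hdecomp : ∀ z : sqrtField (insert a S), ∃ x ∈ L, ∃ y ∈ L, (z : ℂ) = x + y * r ∧
      φ z = x - y * r := by
    intro z
    have hz : (z : ℂ) ∈ Algebra.adjoin L ({r} : Set ℂ) := by
      rw [← adjoin_simple_toSubalgebra_of_isAlgebraic hint.isAlgebraic]
      exact hmem z
    rw [Algebra.adjoin_singleton_eq_range_aeval, AlgHom.mem_range] at hz
    obtain ⟨f, hf⟩ := hz
    obtain ⟨h, hh⟩ : ∃ h, h = f %ₘ g := ⟨_, rfl⟩
    have hd : h.natDegree ≤ 1 := by
      have hlt := natDegree_modByMonic_lt f hgm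
        (fun e1 => hirr.not_isUnit (e1 ▸ isUnit_one))
      rw [hgd, ← hh] at hlt
      omega
    have hfr : aeval r h = (z : ℂ) := by
      rw [hh, ← hf, ← modByMonic_add_div f g, map_add, map_mul, hgr, zero_mul,
        add_zero, modByMonic_add_div f g]
    rw [eq_X_add_C_of_natDegree_le_one hd] at hfr
    simp only [map_add, map_mul, aeval_C, aeval_X] at hfr
    refine ⟨(h.coeff 0 : ℂ), (h.coeff 0).2, (h.coeff 1 : ℂ), (h.coeff 1).2, ?_, ?_⟩
    · rw [← hfr]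
      exact add_comm _ _
    · have hz' : (⟨(z : ℂ), hmem z⟩ : L⟮r⟯) = algebraMap L L⟮r⟯ (h.coeff 1) *
          AdjoinSimple.gen L r + algebraMap L L⟮r⟯ (h.coeff 0) := Subtype.ext hfr.symm
      rw [hφ, hz', map_add, map_mul, AlgHom.commutes, AlgHom.commutes, hψ]
      show (h.coeff 1 : ℂ) * -r + (h.coeff 0 : ℂ) = _
      ring
  refine ⟨φ, fun z hz => ?_, fun z hz => ?_, hdecomp⟩
  · rw [hφ, show (⟨(z : ℂ), hmem z⟩ : L⟮r⟯) = AdjoinSimple.gen L r from Subtype.ext hz, hψ]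
  · rw [hφ, show (⟨(z : ℂ), hmem z⟩ : L⟮r⟯) = algebraMap L L⟮r⟯ ⟨_, hz⟩ from rfl, AlgHom.commutes]
    rfl

theorem isIntegral_flip {T : Finset ℤ} (φ : sqrtField T →ₐ[ℚ] ℂ) {z : sqrtField T}
    (hz : IsIntegral ℤ (z : ℂ)) : IsIntegral ℤ (φ z) := by
  have h : IsIntegral ℤ z :=
    (isIntegral_algebraMap_iff (B := ℂ) (algebraMap (sqrtField T) ℂ).injective).1 hz
  exact h.map (φ.restrictScalars ℤ)

/-- **Local integrality.** -/
theorem exists_mul_isIntegral {p : ℕ} (hp : p.Prime) (hp2 : p ≠ 2) :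
    ∀ (S : Finset ℤ), (∀ a ∈ S, ¬ (p : ℤ) ∣ a) → ∀ v ∈ sqrtField S,
      IsIntegral ℤ ((p : ℂ) * v ^ 2) → ∃ m : ℤ, ¬ (p : ℤ) ∣ m ∧ IsIntegral ℤ ((m : ℂ) * v) := by
  intro S
  induction S using Finset.induction_on with
  | empty =>
    intro _ v hv hint
    rw [sqrtField_empty, mem_bot] at hv
    obtain ⟨q, rfl⟩ := hv
    have hq : IsIntegral ℤ ((p : ℚ) * q ^ 2) :=
      (isIntegral_algebraMap_iff (B := ℂ) (algebraMap ℚ ℂ).injective).1 (by simpa using hint)
    obtain ⟨k, hk⟩ := IsIntegrallyClosed.isIntegral_iff.1 hq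
    have hk' : (p : ℤ) * q.num ^ 2 = k * (q.den : ℤ) ^ 2 := by
      have hk2 : (p : ℚ) * q ^ 2 = k := by simpa using hk.symm
      rw [← Rat.num_div_den q, div_pow, mul_div_assoc', div_eq_iff (by positivity)] at hk2
      exact_mod_cast hk2
    have hden : q.den ^ 2 ∣ p := by
      have h1 : ((q.den : ℤ) ^ 2) ∣ (p : ℤ) * q.num ^ 2 := hk' ▸ dvd_mul_left _ _
      have h2 : IsCoprime ((q.den : ℤ) ^ 2) (q.num ^ 2) :=
        (IsCoprime.pow (Int.isCoprime_iff_nat_coprime.2 (by simpa using q.reduced.symm)))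
      exact_mod_cast h2.dvd_of_dvd_mul_right h1
    have h1 : q.den = 1 := Nat.isUnit_iff.1 ((Nat.prime_iff.1 hp).squarefree q.den (by rwa [← pow_two]))
    refine ⟨1, fun h => hp.ne_one (Nat.eq_one_of_dvd_one (by exact_mod_cast h)), ?_⟩
    rw [Int.cast_one, one_mul, ← Rat.num_div_den q, h1, Nat.cast_one, div_one]
    simpa using (isIntegral_algebraMap (R := ℤ) (A := ℂ) (x := q.num))
  | insert a S ha ih =>
    intro hS v hv hint
    have hS' : ∀ b ∈ S, ¬ (p : ℤ) ∣ b := fun b hb => hS b (Finset.mem_insert_of_mem hb)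
    have hpa := hS a (Finset.mem_insert_self _ _)
    obtain ⟨r, hr⟩ := IsAlgClosed.exists_pow_nat_eq (a : ℂ) two_pos
    by_cases hrS : r ∈ sqrtField S
    · refine ih hS' v ?_ hint
      refine (adjoin_le_iff.2 ?_ : sqrtField (insert a S) ≤ sqrtField S) hv
      rintro z ⟨b, hb, hz⟩
      rcases Finset.mem_insert.1 hb with rfl | hb
      · rcases sq_eq_sq_iff_eq_or_eq_neg.1 (hz.trans hr.symm) with rfl | rfl
        · exact hrS
        · exact neg_mem hrS
      · exact mem_sqrtField hb hz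
    obtain ⟨φ, -, -, hdec⟩ := exists_flip hr hrS
    obtain ⟨x, hx, y, hy, hvxy, hφv⟩ := hdec ⟨v, hv⟩
    have hint' : IsIntegral ℤ ((p : ℂ) * φ ⟨v, hv⟩ ^ 2) := by
      have := isIntegral_flip φ (z := (p : sqrtField (insert a S)) * ⟨v, hv⟩ ^ 2) (by simpa using hint)
      rw [map_mul, map_natCast, map_pow] at this
      exact this
    rw [show v = x + y * r from hvxy] at hint ⊢
    rw [hφv] at hint'
    have hcross : IsIntegral ℤ ((p : ℂ) * ((x + y * r) * (x - y * r))) := by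
      refine IsIntegral.of_pow two_pos ?_
      rw [show ((p : ℂ) * ((x + y * r) * (x - y * r))) ^ 2 =
        ((p : ℂ) * (x + y * r) ^ 2) * ((p : ℂ) * (x - y * r) ^ 2) by ring]
      exact hint.mul hint'
    have h2 : IsIntegral ℤ ((2 : ℂ)) := by
      simpa using (isIntegral_algebraMap (R := ℤ) (A := ℂ) (x := (2 : ℤ)))
    have hA : IsIntegral ℤ ((a : ℂ)) := by
      simpa using (isIntegral_algebraMap (R := ℤ) (A := ℂ) (x := a))
    have hrint : IsIntegral ℤ r := IsIntegral.of_pow two_pos (hr ▸ hA)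
    obtain ⟨m₁, hm₁, hi₁⟩ := ih hS' (2 * x) (mul_mem (_root_.natCast_mem _ 2) hx) (by
      rw [show (p : ℂ) * (2 * x) ^ 2 = (p : ℂ) * (x + y * r) ^ 2 + (p : ℂ) * (x - y * r) ^ 2 +
        2 * ((p : ℂ) * ((x + y * r) * (x - y * r))) by ring]
      exact (hint.add hint').add (h2.mul hcross))
    obtain ⟨m₂, hm₂, hi₂⟩ := ih hS' (2 * y * a) (mul_mem (mul_mem (_root_.natCast_mem _ 2) hy)
      (intCast_mem _ a)) (by
      rw [show (p : ℂ) * (2 * y * a) ^ 2 = (a : ℂ) * ((p : ℂ) * (x + y * r) ^ 2 +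
        (p : ℂ) * (x - y * r) ^ 2 - 2 * ((p : ℂ) * ((x + y * r) * (x - y * r)))) by
        rw [← hr]; ring]
      exact hA.mul ((hint.add hint').sub (h2.mul hcross)))
    have hM1 : IsIntegral ℤ ((m₁ : ℂ)) := by
      simpa using (isIntegral_algebraMap (R := ℤ) (A := ℂ) (x := m₁))
    have hM2 : IsIntegral ℤ ((m₂ : ℂ)) := by
      simpa using (isIntegral_algebraMap (R := ℤ) (A := ℂ) (x := m₂))
    refine ⟨2 * a * m₁ * m₂, ?_, ?_⟩
    · intro h
      have hpz : Prime (p : ℤ) := Nat.prime_iff_prime_int.1 hp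
      rcases hpz.dvd_or_dvd h with h | h
      · rcases hpz.dvd_or_dvd h with h | h
        · rcases hpz.dvd_or_dvd h with h | h
          · exact hp2 ((Nat.prime_dvd_prime_iff_eq hp Nat.prime_two).1 (by exact_mod_cast h))
          · exact hpa h
        · exact hm₁ h
      · exact hm₂ h
    · rw [show ((2 * a * m₁ * m₂ : ℤ) : ℂ) * (x + y * r) =
        (a : ℂ) * (m₂ : ℂ) * ((m₁ : ℂ) * (2 * x)) + r * (m₁ : ℂ) * ((m₂ : ℂ) * (2 * y * a)) by
        push_cast; ring]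
      exact ((hA.mul hM2).mul hi₁).add ((hrint.mul hM1).mul hi₂)

end FA.QuadraticNorthcott

end
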