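import Mathlib.NumberTheory.Height.NumberField

/-!
# An automorphism congruent to the identity modulo a square root

If an automorphism `σ` of a number field moves every integer by a multiple of `r`, where `r ^ 2 = p`,
up to factors prime to `p`, then an element moved by `σ` has height bounded below in terms of `p`.
-/

set_option autoImplicit false

noncomputable section

namespace FA.QuadraticNorthcott

open NumberField IsDedekindDomain

variable {K : Type*} [Field K] [NumberField K]

theorem finitePlace_int_le_one (v : FinitePlace K) (z : 𝓞 K) : v (z : K) ≤ 1 := by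
  rw [← FinitePlace.norm_embedding_eq]
  exact FinitePlace.norm_le_one K _ _

theorem finitePlace_intCast_le_one (v : FinitePlace K) (c : ℤ) : v (c : K) ≤ 1 := by
  simpa using finitePlace_int_le_one v (c : 𝓞 K)

theorem finitePlace_sub_le (v : FinitePlace K) (a b : K) : v (a - b) ≤ max (v a) (v b) := by
  rw [sub_eq_add_neg]
  refine (FinitePlace.add_le v a (-b)).trans (le_of_eq ?_)
  rw [FinitePlace.coe_apply v (-b), AbsoluteValue.map_neg, ← FinitePlace.coe_apply]

/-- An element which is integral at `v` is a quotient of integers by a unit at `v`. -/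
theorem exists_mul_eq_of_le_one (v : FinitePlace K) {x : K} (hx : v x ≤ 1) :
    ∃ n d : 𝓞 K, v (d : K) = 1 ∧ x * (d : K) = (n : K) := by
  obtain ⟨n, ⟨d, hd⟩, h | h⟩ := v.maximalIdeal.exists_primeCompl_mul_eq_or_mul_eq (K := K) x
  · refine ⟨n, d, ?_, h⟩
    rw [← FinitePlace.norm_embedding_eq]
    exact (FinitePlace.norm_eq_one_iff_notMem K _ d).2 hd
  · refine ⟨d, n, le_antisymm (finitePlace_int_le_one v n) ?_, h⟩
    have h1 : v (d : K) = 1 := by
      rw [← FinitePlace.norm_embedding_eq]
      exact (FinitePlace.norm_eq_one_iff_notMem K _ d).2 hd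
    rw [← h1, show (d : K) = x * (n : K) from h.symm, map_mul]
    exact mul_le_of_le_one_left (apply_nonneg v _) hx

variable (σ : K ≃ₐ[ℚ] K) {p : ℕ} {r : K}

theorem exists_coe_eq_apply (z : 𝓞 K) : ∃ w : 𝓞 K, (w : K) = σ (z : K) :=
  ⟨⟨σ (z : K), z.isIntegral_coe.map (σ.toAlgHom.restrictScalars ℤ)⟩, rfl⟩

/-- Integers are moved by multiples of `r`. -/
theorem apply_sub_le_of_lt_one (v : FinitePlace K) (hr : r ^ 2 = (p : K)) (hv : v r < 1)
    (hp : p.Prime)
    (hdiv : ∀ z : 𝓞 K, ∃ m : ℤ, ¬ (p : ℤ) ∣ m ∧ ∃ t : 𝓞 K, (m : K) * (σ z - z) = r * t)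
    (z : 𝓞 K) : v (σ (z : K) - z) ≤ v r := by
  obtain ⟨m, hm, t, ht⟩ := hdiv z
  obtain ⟨a, b, hab⟩ : IsCoprime m (p : ℤ) :=
    ((Prime.coprime_iff_not_dvd (Nat.prime_iff_prime_int.1 hp)).2 hm).symm
  have hvp : v (p : K) < 1 := by
    rw [← hr, map_pow]
    exact pow_lt_one₀ (apply_nonneg v _) hv two_ne_zero
  have hvm : v (m : K) = 1 := by
    refine le_antisymm (finitePlace_intCast_le_one v m) (not_lt.1 fun hlt => ?_)
    have h : ((a : K) * m + (b : K) * (p : K)) = 1 := by exact_mod_cast congrArg (Int.cast (R := K)) hab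
    have := FinitePlace.add_le v ((a : K) * m) ((b : K) * (p : K))
    rw [h, map_one, map_mul, map_mul] at this
    rcases le_max_iff.1 this with h1 | h1
    · exact absurd (h1.trans (mul_le_of_le_one_left (apply_nonneg v _)
        (finitePlace_intCast_le_one v a))) (not_le.2 hlt)
    · exact absurd (h1.trans (mul_le_of_le_one_left (apply_nonneg v _)
        (finitePlace_intCast_le_one v b))) (not_le.2 hvp)
  have h := congrArg (fun y => v y) ht
  simp only [map_mul, hvm, one_mul] at h
  rw [h]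
  exact mul_le_of_le_one_right (apply_nonneg v _) (finitePlace_int_le_one v t)

/-- Field elements are moved by multiples of `r`. -/
theorem apply_sub_le (v : FinitePlace K) (hr : r ^ 2 = (p : K)) (hp : p.Prime)
    (hdiv : ∀ z : 𝓞 K, ∃ m : ℤ, ¬ (p : ℤ) ∣ m ∧ ∃ t : 𝓞 K, (m : K) * (σ z - z) = r * t)
    (x : K) : v (σ x - x) ≤ v r * (max (v x) 1 * max (v (σ x)) 1) := by
  have hM1 : 1 ≤ max (v x) 1 := le_max_right _ _
  have hM2 : 1 ≤ max (v (σ x)) 1 := le_max_right _ _
  rcases lt_or_ge (v r) 1 with hv | hv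
  swap
  · refine le_trans ?_ (le_mul_of_one_le_left (by positivity) hv)
    refine (finitePlace_sub_le v _ _).trans (max_le ?_ ?_)
    · exact (le_max_left _ _).trans (le_mul_of_one_le_left (by positivity) hM1)
    · exact (le_max_left _ _).trans (le_mul_of_one_le_right (by positivity) hM2)
  have key : ∀ y : K, v y ≤ 1 → v (σ y - y) ≤ v r := by
    intro y hy
    obtain ⟨n, d, hd, hyd⟩ := exists_mul_eq_of_le_one v hy
    obtain ⟨n', hn'⟩ := exists_coe_eq_apply σ n
    have h1 := apply_sub_le_of_lt_one σ v hr hv hp hdiv n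
    have h2 := apply_sub_le_of_lt_one σ v hr hv hp hdiv d
    have hd' : v (σ (d : K)) = 1 := by
      refine le_antisymm ?_ ?_
      · obtain ⟨d', hd'⟩ := exists_coe_eq_apply σ d
        rw [← hd']
        exact finitePlace_int_le_one v d'
      · by_contra hlt
        rw [not_le] at hlt
        have := finitePlace_sub_le v (σ (d : K)) (σ (d : K) - d)
        rw [sub_sub_cancel, hd] at this
        exact absurd this (not_le.2 (max_lt hlt (h2.trans_lt hv)))
    have hσ : σ y * σ (d : K) = σ (n : K) := by rw [← map_mul, hyd]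
    have e : (σ y - y) * (σ (d : K) * d) =
        (σ (n : K) - n) * d - (n : K) * (σ (d : K) - d) := by
      linear_combination (d : K) * hσ - (σ (d : K)) * hyd
    have hle : v ((σ y - y) * (σ (d : K) * d)) ≤ v r := by
      rw [e]
      refine (finitePlace_sub_le v _ _).trans (max_le ?_ ?_)
      · rw [map_mul, hd, mul_one]
        exact h1
      · rw [map_mul]
        exact (mul_le_of_le_one_left (apply_nonneg v _) (finitePlace_int_le_one v n)).trans h2
    rwa [map_mul, map_mul, hd, hd', mul_one, mul_one] at hle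
  rcases le_or_gt (v x) 1 with hx | hx
  · exact (key x hx).trans (le_mul_of_one_le_right (apply_nonneg v _)
      (one_le_mul_of_one_le_of_one_le hM1 hM2))
  · have hx0 : x ≠ 0 := by rintro rfl; rw [map_zero] at hx; exact absurd hx (by norm_num)
    have hσ0 : σ x ≠ 0 := by simpa using hx0
    have h := key x⁻¹ (by rw [map_inv₀]; exact inv_le_one_of_one_le₀ hx.le)
    have e : σ x - x = -((σ x⁻¹ - x⁻¹) * (x * σ x)) := by
      rw [map_inv₀]
      field_simp
      ring
    rw [e, FinitePlace.coe_apply, AbsoluteValue.map_neg, ← FinitePlace.coe_apply, map_mul, map_mul]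
    exact mul_le_mul h (mul_le_mul (le_max_left _ _) (le_max_left _ _) (apply_nonneg v _)
      (le_trans zero_le_one hM1)) (mul_nonneg (apply_nonneg v _) (apply_nonneg v _))
      (apply_nonneg v _)

omit [NumberField K] in
theorem infinitePlace_apply_eq_sqrt (w : InfinitePlace K) (hr : r ^ 2 = (p : K)) :
    w r = Real.sqrt p := by
  have h : w r ^ 2 = (p : ℝ) := by
    rw [← InfinitePlace.norm_embedding_eq, ← norm_pow, ← map_pow, hr, map_natCast,
      Complex.norm_natCast]
  rw [← h, Real.sqrt_sq (apply_nonneg w _)]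

/-- **The height inequality.** -/
theorem sqrt_pow_le (hr : r ^ 2 = (p : K)) (hp : p.Prime)
    (hdiv : ∀ z : 𝓞 K, ∃ m : ℤ, ¬ (p : ℤ) ∣ m ∧ ∃ t : 𝓞 K, (m : K) * (σ z - z) = r * t)
    {x : K} (hx : σ x ≠ x) :
    Real.sqrt p ^ Module.finrank ℚ K ≤
      2 ^ Module.finrank ℚ K * (Height.mulHeight₁ x * Height.mulHeight₁ (σ x)) := by
  classical
  have hδ : σ x - x ≠ 0 := sub_ne_zero.2 hx
  have hr0 : r ≠ 0 := by
    rintro rfl
    rw [zero_pow two_ne_zero, eq_comm, Nat.cast_eq_zero] at hr
    exact hp.ne_zero hr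
  have hfin : ∀ y : K, (Function.mulSupport fun v : FinitePlace K => max (v y) 1).Finite := by
    intro y
    rcases eq_or_ne y 0 with rfl | hy
    · simp
    · refine (FinitePlace.hasFiniteMulSupport hy).subset fun v hv h1 => ?_
      exact hv (by simp [show v y = 1 from h1])
  obtain ⟨T, hT⟩ : ∃ T : Finset (FinitePlace K),
      (Function.mulSupport fun v : FinitePlace K => v (σ x - x)) ⊆ T ∧
      (Function.mulSupport fun v : FinitePlace K => v r) ⊆ T ∧
      (Function.mulSupport fun v : FinitePlace K => max (v x) 1) ⊆ T ∧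
      (Function.mulSupport fun v : FinitePlace K => max (v (σ x)) 1) ⊆ T := by
    refine ⟨((FinitePlace.hasFiniteMulSupport hδ).union ((FinitePlace.hasFiniteMulSupport hr0).union
      ((hfin x).union (hfin (σ x))))).toFinset, ?_, ?_, ?_, ?_⟩ <;>
      rw [Set.Finite.coe_toFinset] <;> intro v hv
    exacts [Or.inl hv, Or.inr (Or.inl hv), Or.inr (Or.inr (Or.inl hv)),
      Or.inr (Or.inr (Or.inr hv))]
  obtain ⟨hT1, hT2, hT3, hT4⟩ := hT
  have hpr := prod_abs_eq_one hδ
  have hpr2 := prod_abs_eq_one hr0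
  rw [finprod_eq_prod_of_mulSupport_subset _ hT1] at hpr
  rw [finprod_eq_prod_of_mulSupport_subset _ hT2] at hpr2
  rw [mulHeight₁_eq, mulHeight₁_eq, finprod_eq_prod_of_mulSupport_subset _ hT3,
    finprod_eq_prod_of_mulSupport_subset _ hT4]
  set D := Module.finrank ℚ K
  have hD : ∑ w : InfinitePlace K, w.mult = D := InfinitePlace.sum_mult_eq
  have hinfr : ∏ w : InfinitePlace K, w r ^ w.mult = Real.sqrt p ^ D := by
    rw [← hD, ← Finset.prod_pow_eq_pow_sum]
    exact Finset.prod_congr rfl fun w _ => by rw [infinitePlace_apply_eq_sqrt w hr]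
  rw [hinfr] at hpr2
  have hi : ∏ w : InfinitePlace K, w (σ x - x) ^ w.mult ≤
      2 ^ D * ((∏ w : InfinitePlace K, max (w x) 1 ^ w.mult) *
        ∏ w : InfinitePlace K, max (w (σ x)) 1 ^ w.mult) := by
    rw [← hD, ← Finset.prod_pow_eq_pow_sum, ← Finset.prod_mul_distrib, ← Finset.prod_mul_distrib]
    refine Finset.prod_le_prod (fun w _ => pow_nonneg (apply_nonneg w _) _) fun w _ => ?_
    rw [← mul_pow, ← mul_pow]
    refine pow_le_pow_left₀ (apply_nonneg w _) ?_ _
    have h1 : w (σ x - x) ≤ w (σ x) + w x := by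
      rw [← InfinitePlace.norm_embedding_eq, ← InfinitePlace.norm_embedding_eq w (σ x),
        ← InfinitePlace.norm_embedding_eq w x, map_sub]
      exact norm_sub_le _ _
    have a1 := le_max_left (w x) 1
    have a2 := le_max_right (w x) 1
    have b1 := le_max_left (w (σ x)) 1
    have b2 := le_max_right (w (σ x)) 1
    nlinarith [mul_nonneg (sub_nonneg.2 a2) (sub_nonneg.2 b2)]
  have hf : ∏ v ∈ T, v (σ x - x) ≤
      (∏ v ∈ T, v r) * ((∏ v ∈ T, max (v x) 1) * ∏ v ∈ T, max (v (σ x)) 1) := by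
    rw [← Finset.prod_mul_distrib, ← Finset.prod_mul_distrib]
    exact Finset.prod_le_prod (fun v _ => apply_nonneg v _) fun v _ =>
      apply_sub_le σ v hr hp hdiv x
  have hmain := mul_le_mul hi hf (Finset.prod_nonneg fun v _ => apply_nonneg v _) (by positivity)
  rw [hpr] at hmain
  have hs : (0 : ℝ) ≤ Real.sqrt p ^ D := by positivity
  calc Real.sqrt p ^ D = Real.sqrt p ^ D * 1 := (mul_one _).symm
    _ ≤ _ := mul_le_mul_of_nonneg_left hmain hs
    _ = (Real.sqrt p ^ D * ∏ v ∈ T, v r) * (2 ^ D *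
        (((∏ w : InfinitePlace K, max (w x) 1 ^ w.mult) * ∏ v ∈ T, max (v x) 1) *
          ((∏ w : InfinitePlace K, max (w (σ x)) 1 ^ w.mult) *
            ∏ v ∈ T, max (v (σ x)) 1))) := by ring
    _ = _ := by rw [hpr2, one_mul]

end FA.QuadraticNorthcott

end
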