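import Fermat.Agent.BiluTorus.Height
import Fermat.Agent.QuadraticNorthcott.Fields
import Fermat.Agent.QuadraticNorthcott.Local

/-!
# The height of an element which needs the square root of an odd prime

Such an element has height at least `log p / 4 - log 2 / 2`.
-/

set_option autoImplicit false

noncomputable section

namespace FA.QuadraticNorthcott

open NumberField Polynomial IntermediateField FA.BiluTorus

theorem apply_mem_sqrtField {S : Finset ℤ} (f : sqrtField S →ₐ[ℚ] ℂ) (z : sqrtField S) :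
    f z ∈ sqrtField S :=
  (@AlgHom.fieldRange_of_normal ℚ ℂ _ _ _ (sqrtField S)
    (inferInstance : Normal ℚ (sqrtField S)) f).le ⟨z, rfl⟩

theorem sqrtField_insert_le_of_mem {S : Finset ℤ} {a : ℤ} {r : ℂ} (hr : r ^ 2 = (a : ℂ))
    (hrS : r ∈ sqrtField S) : sqrtField (insert a S) ≤ sqrtField S := by
  refine adjoin_le_iff.2 ?_
  rintro z ⟨b, hb, hz⟩
  rcases Finset.mem_insert.1 hb with rfl | hb
  · rcases sq_eq_sq_iff_eq_or_eq_neg.1 (hz.trans hr.symm) with rfl | rfl
    · exact hrS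
    · exact neg_mem hrS
  · exact mem_sqrtField hb hz

/-- **The height bound.** An element of a field generated by square roots which needs the square
root of the odd prime `p` has height at least `log p / 4 - log 2 / 2`. -/
theorem sqrt_prime_height_bound {p : ℕ} (hp : p.Prime) (hp2 : p ≠ 2) {S : Finset ℤ}
    (hS : ∀ a ∈ S, ¬ (p : ℤ) ∣ a) {x : ℂ} (hx : x ∈ sqrtField (insert (p : ℤ) S))
    (hxS : x ∉ sqrtField S) :
    Real.log p / 4 - Real.log 2 / 2 ≤ algHeight x := by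
  classical
  obtain ⟨r, hr⟩ := IsAlgClosed.exists_pow_nat_eq ((p : ℤ) : ℂ) two_pos
  have hrS : r ∉ sqrtField S := fun h => hxS (sqrtField_insert_le_of_mem hr h hx)
  obtain ⟨φ, -, -, hdec⟩ := exists_flip hr hrS
  haveI : NumberField (sqrtField (insert (p : ℤ) S)) := {}
  have hmem : ∀ z, φ z ∈ (sqrtField (insert (p : ℤ) S)).toSubalgebra :=
    apply_mem_sqrtField φ
  obtain ⟨σ, hσ⟩ : ∃ σ : sqrtField (insert (p : ℤ) S) ≃ₐ[ℚ] sqrtField (insert (p : ℤ) S),
      ∀ z, (σ z : ℂ) = φ z :=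
    ⟨AlgEquiv.ofBijective (φ.codRestrict _ hmem) (AlgHom.bijective _), fun z => rfl⟩
  obtain ⟨rM, hrM⟩ : ∃ rM : sqrtField (insert (p : ℤ) S), (rM : ℂ) = r :=
    ⟨⟨r, mem_sqrtField (Finset.mem_insert_self _ _) hr⟩, rfl⟩
  have hrM2 : rM ^ 2 = (p : sqrtField (insert (p : ℤ) S)) :=
    Subtype.ext (by simpa [hrM] using hr)
  have hdiv : ∀ z : 𝓞 (sqrtField (insert (p : ℤ) S)), ∃ m : ℤ, ¬ (p : ℤ) ∣ m ∧
      ∃ t : 𝓞 (sqrtField (insert (p : ℤ) S)),
        (m : sqrtField (insert (p : ℤ) S)) * (σ z - z) = rM * t := by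
    intro z
    obtain ⟨u, -, v, hv, hz, hφ⟩ := hdec (z : sqrtField (insert (p : ℤ) S))
    have hzi : IsIntegral ℤ (((z : sqrtField (insert (p : ℤ) S)) : ℂ)) :=
      z.isIntegral_coe.map ((sqrtField (insert (p : ℤ) S)).val.restrictScalars ℤ)
    have hφi := isIntegral_flip φ hzi
    have hint : IsIntegral ℤ ((p : ℂ) * (2 * v) ^ 2) := by
      have := (hzi.sub hφi).pow 2
      rw [hz, hφ] at this
      have e : (p : ℂ) * (2 * v) ^ 2 = (u + v * r - (u - v * r)) ^ 2 := by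
        rw [show ((p : ℂ)) = r ^ 2 by rw [hr, Int.cast_natCast]]
        ring
      rw [e]
      exact this
    obtain ⟨m, hm, hi⟩ := exists_mul_isIntegral hp hp2 S hS (2 * v)
      (mul_mem (_root_.natCast_mem _ 2) hv) hint
    obtain ⟨t', ht'⟩ : ∃ t' : sqrtField (insert (p : ℤ) S),
        (t' : ℂ) = -((m : ℂ) * (2 * v)) :=
      ⟨⟨-((m : ℂ) * (2 * v)), neg_mem (mul_mem (intCast_mem _ m)
        (mul_mem (_root_.natCast_mem _ 2) (sqrtField_mono (Finset.subset_insert _ _) hv)))⟩, rfl⟩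
    have ht : IsIntegral ℤ t' :=
      (isIntegral_algebraMap_iff (B := ℂ) (algebraMap (sqrtField (insert (p : ℤ) S)) ℂ).injective).1
        (by rw [show algebraMap (sqrtField (insert (p : ℤ) S)) ℂ t' = (t' : ℂ) from rfl, ht']
            exact hi.neg)
    refine ⟨m, hm, ⟨t', ht⟩, Subtype.ext ?_⟩
    show (m : ℂ) * ((σ z : ℂ) - (z : sqrtField (insert (p : ℤ) S))) = (rM : ℂ) * (t' : ℂ)
    rw [hσ, ht', hrM, hz, hφ]
    ring
  obtain ⟨a, ha⟩ : ∃ a : sqrtField (insert (p : ℤ) S), (a : ℂ) = x := ⟨⟨x, hx⟩, rfl⟩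
  have hmoved : ∀ g : sqrtField (insert (p : ℤ) S) ≃ₐ[ℚ] sqrtField (insert (p : ℤ) S),
      σ (g a) ≠ g a := by
    intro g hg
    obtain ⟨u, hu, v, -, hz, hφ⟩ := hdec (g a)
    have hL : (g a : ℂ) ∈ sqrtField S := by
      have h : ((σ (g a) : sqrtField (insert (p : ℤ) S)) : ℂ) = (g a : ℂ) := by rw [hg]
      simp only [hσ, hφ, hz] at h
      rw [hz, show v * r = 0 by linear_combination (-1 / 2 : ℂ) * h, add_zero]
      exact hu
    refine hxS ?_
    obtain ⟨ψ, hψ⟩ : ∃ ψ : sqrtField S →ₐ[ℚ] ℂ, ∀ y, ψ y =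
        (g.symm (IntermediateField.inclusion (sqrtField_mono (Finset.subset_insert (p : ℤ) S)) y) :
          ℂ) :=
      ⟨((sqrtField (insert (p : ℤ) S)).val.comp g.symm.toAlgHom).comp
        (IntermediateField.inclusion (sqrtField_mono (Finset.subset_insert (p : ℤ) S))),
        fun y => rfl⟩
    have h2 := apply_mem_sqrtField ψ ⟨_, hL⟩
    rw [hψ, show IntermediateField.inclusion _ (⟨_, hL⟩ : sqrtField S) = g a from Subtype.ext rfl,
      AlgEquiv.symm_apply_apply, ha] at h2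
    exact h2
  set D := Module.finrank ℚ (sqrtField (insert (p : ℤ) S))
  have hpp : (0 : ℝ) < (p : ℝ) := by exact_mod_cast hp.pos
  have hone : ∀ g : sqrtField (insert (p : ℤ) S) ≃ₐ[ℚ] sqrtField (insert (p : ℤ) S),
      (D : ℝ) * (Real.log p / 2 - Real.log 2) ≤
        Height.logHeight₁ (g a) + Height.logHeight₁ (σ (g a)) := by
    intro g
    have h := Real.log_le_log (by positivity) (sqrt_pow_le σ hrM2 hp hdiv (hmoved g))
    have h1 : (Height.mulHeight₁ (g a)) ≠ 0 := (Height.mulHeight₁_pos _).ne'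
    have h2 : (Height.mulHeight₁ (σ (g a))) ≠ 0 := (Height.mulHeight₁_pos _).ne'
    rw [Real.log_mul (pow_ne_zero _ two_ne_zero) (mul_ne_zero h1 h2), Real.log_mul h1 h2,
      Real.log_pow, Real.log_pow, Real.log_sqrt hpp.le, ← Height.logHeight₁_eq_log_mulHeight₁,
      ← Height.logHeight₁_eq_log_mulHeight₁] at h
    linarith
  obtain ⟨q, hq, hqx⟩ := exists_irreducible (x := x)
    (ha ▸ (IsIntegral.of_finite ℚ a).isAlgebraic.algHom (sqrtField (insert (p : ℤ) S)).val)
  have hsum := sum_logHeight₁ a hq (ha.symm ▸ hqx)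
  rw [ha] at hsum
  have hsum2 : ∑ g : sqrtField (insert (p : ℤ) S) ≃ₐ[ℚ] sqrtField (insert (p : ℤ) S),
      Height.logHeight₁ (σ (g a)) = (D : ℝ) ^ 2 * algHeight x := by
    rw [← hsum]
    exact Fintype.sum_equiv (Equiv.mulLeft σ) _ _ fun g => rfl
  have htot := Finset.sum_le_sum fun g (_ : g ∈ Finset.univ) => hone g
  rw [Finset.sum_add_distrib, hsum, hsum2, Finset.sum_const, Finset.card_univ, nsmul_eq_mul,
    ← Nat.card_eq_fintype_card, IsGalois.card_aut_eq_finrank] at htot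
  have hD : (0 : ℝ) < (D : ℝ) ^ 2 := by
    have : 0 < D := Module.finrank_pos
    positivity
  by_contra hc
  rw [not_le] at hc
  have := mul_lt_mul_of_pos_left hc hD
  nlinarith

end FA.QuadraticNorthcott

end
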