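import Fermat.Agent.QuadraticNorthcott.Height
import Mathlib.Data.Nat.Factorization.Induction
import Mathlib.FieldTheory.Minpoly.IsIntegrallyClosed
import Mathlib.Algebra.Order.Floor.Semiring

/-!
# The Northcott property of the compositum of all quadratic fields

An element of height at most `T` of that field needs only `i` and the square roots of the primes up
to `max 2 (4 exp (4 T))`.
-/

set_option autoImplicit false

noncomputable section

namespace FA.QuadraticNorthcott

open NumberField Polynomial IntermediateField FA.BiluTorus FA.Bilu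

/-- The compositum of all quadratic fields. -/
def quadraticCompositum : IntermediateField ℚ ℂ :=
  adjoin ℚ {z : ℂ | ∃ q : ℚ, z ^ 2 = (q : ℂ)}

/-- A set made of `-1` and primes. -/
def IsGoodSet (S : Finset ℤ) : Prop :=
  ∀ a ∈ S, a = -1 ∨ ∃ p : ℕ, p.Prime ∧ a = (p : ℤ)

theorem isGoodSet_union {S T : Finset ℤ} (hS : IsGoodSet S) (hT : IsGoodSet T) :
    IsGoodSet (S ∪ T) := fun a ha => (Finset.mem_union.1 ha).elim (hS a) (hT a)

theorem exists_sqrtField_of_sq_eq_nat (n : ℕ) :
    ∀ z : ℂ, z ^ 2 = (n : ℂ) → ∃ S, IsGoodSet S ∧ z ∈ sqrtField S := by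
  induction n using Nat.recOnMul with
  | zero =>
    intro z hz
    rw [Nat.cast_zero, sq_eq_zero_iff] at hz
    exact ⟨∅, fun a ha => absurd ha (Finset.notMem_empty a), hz ▸ zero_mem _⟩
  | one =>
    intro z hz
    rw [Nat.cast_one, sq_eq_one_iff] at hz
    refine ⟨∅, fun a ha => absurd ha (Finset.notMem_empty a), ?_⟩
    rcases hz with rfl | rfl
    · exact one_mem _
    · exact neg_mem (one_mem _)
  | prime p hp =>
    intro z hz
    refine ⟨{(p : ℤ)}, fun a ha => Or.inr ⟨p, hp, Finset.mem_singleton.1 ha⟩, ?_⟩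
    exact mem_sqrtField (Finset.mem_singleton_self _) (by simpa using hz)
  | mul a b iha ihb =>
    intro z hz
    obtain ⟨u, hu⟩ := IsAlgClosed.exists_pow_nat_eq (a : ℂ) two_pos
    obtain ⟨v, hv⟩ := IsAlgClosed.exists_pow_nat_eq (b : ℂ) two_pos
    obtain ⟨S, hS, huS⟩ := iha u hu
    obtain ⟨T, hT, hvT⟩ := ihb v hv
    refine ⟨S ∪ T, isGoodSet_union hS hT, ?_⟩
    have h : z ^ 2 = (u * v) ^ 2 := by rw [hz, mul_pow, hu, hv, Nat.cast_mul]
    have hm := mul_mem (sqrtField_mono (Finset.subset_union_left (s₂ := T)) huS)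
      (sqrtField_mono (Finset.subset_union_right (s₁ := S)) hvT)
    rcases sq_eq_sq_iff_eq_or_eq_neg.1 h with rfl | rfl
    · exact hm
    · exact neg_mem hm

theorem exists_sqrtField_of_sq_eq_int (N : ℤ) (z : ℂ) (hz : z ^ 2 = (N : ℂ)) :
    ∃ S, IsGoodSet S ∧ z ∈ sqrtField S := by
  rcases Int.natAbs_eq N with h | h
  · refine exists_sqrtField_of_sq_eq_nat N.natAbs z ?_
    rw [hz, h, Int.natAbs_natCast, Int.cast_natCast]
  · obtain ⟨S, hS, hmem⟩ := exists_sqrtField_of_sq_eq_nat N.natAbs (Complex.I * z) (by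
      rw [mul_pow, hz, Complex.I_sq, h, Int.natAbs_neg, Int.natAbs_natCast, Int.cast_neg,
        Int.cast_natCast]
      ring)
    refine ⟨insert (-1) S, fun a ha => (Finset.mem_insert.1 ha).elim Or.inl (hS a), ?_⟩
    have hI : Complex.I ∈ sqrtField (insert (-1) S) :=
      mem_sqrtField (Finset.mem_insert_self _ _) (by simp)
    rw [show z = -(Complex.I * (Complex.I * z)) by rw [← mul_assoc, Complex.I_mul_I]; ring]
    exact neg_mem (mul_mem hI (sqrtField_mono (Finset.subset_insert _ _) hmem))

theorem exists_sqrtField_of_mem {x : ℂ} (hx : x ∈ quadraticCompositum) :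
    ∃ S, IsGoodSet S ∧ x ∈ sqrtField S := by
  induction hx using IntermediateField.adjoin_induction with
  | mem z hz =>
    obtain ⟨q, hq⟩ := hz
    have hd : ((q.den : ℂ)) ≠ 0 := Nat.cast_ne_zero.2 q.den_nz
    obtain ⟨S, hS, hmem⟩ := exists_sqrtField_of_sq_eq_int (q.num * q.den) (z * q.den) (by
      rw [mul_pow, hq, Rat.cast_def, Int.cast_mul, Int.cast_natCast]
      field_simp)
    refine ⟨S, hS, ?_⟩
    rw [show z = z * q.den / q.den by rw [mul_div_cancel_right₀ _ hd]]
    exact div_mem hmem (_root_.natCast_mem _ q.den)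
  | algebraMap q => exact ⟨∅, fun a ha => absurd ha (Finset.notMem_empty a), IntermediateField.algebraMap_mem _ q⟩
  | add u v _ _ hu hv =>
    obtain ⟨S, hS, huS⟩ := hu
    obtain ⟨T, hT, hvT⟩ := hv
    exact ⟨S ∪ T, isGoodSet_union hS hT, add_mem (sqrtField_mono Finset.subset_union_left huS)
      (sqrtField_mono Finset.subset_union_right hvT)⟩
  | inv u _ hu =>
    obtain ⟨S, hS, huS⟩ := hu
    exact ⟨S, hS, inv_mem huS⟩
  | mul u v _ _ hu hv =>
    obtain ⟨S, hS, huS⟩ := hu
    obtain ⟨T, hT, hvT⟩ := hv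
    exact ⟨S ∪ T, isGoodSet_union hS hT, mul_mem (sqrtField_mono Finset.subset_union_left huS)
      (sqrtField_mono Finset.subset_union_right hvT)⟩

/-- `-1` and the primes up to `P`. -/
def smallSet (P : ℕ) : Finset ℤ :=
  insert (-1) (((Finset.range (P + 1)).filter Nat.Prime).image fun p : ℕ => (p : ℤ))

theorem mem_sqrtField_smallSet {T : ℝ} {P : ℕ} (hP : 2 ≤ P)
    (hP' : ∀ p : ℕ, P < p → 4 * Real.exp (4 * T) < p) {x : ℂ} (hT : algHeight x ≤ T) :
    ∀ U : Finset ℤ, IsGoodSet U → x ∈ sqrtField (smallSet P ∪ U) → x ∈ sqrtField (smallSet P) := by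
  intro U
  induction U using Finset.induction_on with
  | empty =>
    intro _ h
    rwa [Finset.union_empty] at h
  | insert a U ha ih =>
    intro hU h
    have hU' : IsGoodSet U := fun b hb => hU b (Finset.mem_insert_of_mem hb)
    refine ih hU' ?_
    by_cases haS : a ∈ smallSet P ∪ U
    · rwa [Finset.union_insert, Finset.insert_eq_self.2 haS] at h
    obtain rfl | ⟨p, hp, rfl⟩ := hU a (Finset.mem_insert_self _ _)
    · exact absurd (Finset.mem_union_left U (Finset.mem_insert_self _ _)) haS
    have hpP : P < p := by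
      by_contra hle
      refine haS (Finset.mem_union_left U (Finset.mem_insert_of_mem (Finset.mem_image.2
        ⟨p, Finset.mem_filter.2 ⟨Finset.mem_range.2 (by omega), hp⟩, rfl⟩)))
    by_contra hx
    have hdiv : ∀ b ∈ smallSet P ∪ U, ¬ (p : ℤ) ∣ b := by
      intro b hb hpb
      have hgood : b = -1 ∨ ∃ q : ℕ, q.Prime ∧ b = (q : ℤ) := by
        rcases Finset.mem_union.1 hb with hb | hb
        · rcases Finset.mem_insert.1 hb with hb | hb
          · exact Or.inl hb
          · obtain ⟨q, hq, rfl⟩ := Finset.mem_image.1 hb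
            exact Or.inr ⟨q, (Finset.mem_filter.1 hq).2, rfl⟩
        · exact hU' b hb
      obtain rfl | ⟨q, hq, rfl⟩ := hgood
      · rw [dvd_neg] at hpb
        exact hp.ne_one (Nat.eq_one_of_dvd_one (by exact_mod_cast hpb))
      · exact haS ((Nat.prime_dvd_prime_iff_eq hp hq).1 (by exact_mod_cast hpb) ▸ hb)
    have hb := sqrt_prime_height_bound hp (by omega) hdiv (by rwa [Finset.union_insert] at h) hx
    have hlog : Real.log 4 + 4 * T < Real.log p := by
      rw [← Real.log_exp (4 * T), ← Real.log_mul (by norm_num) (Real.exp_pos _).ne']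
      exact Real.log_lt_log (by positivity) (hP' p hpP)
    have h4 : Real.log 4 = 2 * Real.log 2 := by
      rw [show (4 : ℝ) = 2 ^ 2 by norm_num, Real.log_pow]
      norm_num
    linarith

/-- The bound for the primes that are needed at height `T`. -/
def primeBound (T : ℝ) : ℕ := max 2 ⌊4 * Real.exp (4 * T)⌋₊

theorem mem_of_height_le {T : ℝ} {x : ℂ} (hx : x ∈ quadraticCompositum) (hT : algHeight x ≤ T) :
    x ∈ sqrtField (smallSet (primeBound T)) := by
  obtain ⟨S, hS, hxS⟩ := exists_sqrtField_of_mem hx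
  refine mem_sqrtField_smallSet (le_max_left _ _) (fun p hp => ?_) hT S hS
    (sqrtField_mono Finset.subset_union_right hxS)
  exact (Nat.floor_lt (by positivity)).1 ((le_max_right _ _).trans_lt hp)

/-- Only `i` and the square roots of the primes up to `max 2 (4 exp (4 T))` are needed. -/
theorem height_support {T : ℝ} {x : ℂ} (hx : x ∈ quadraticCompositum) (hT : algHeight x ≤ T) :
    x ∈ adjoin ℚ {z : ℂ | z ^ 2 = -1 ∨
      ∃ p : ℕ, p.Prime ∧ (p : ℝ) ≤ max 2 (4 * Real.exp (4 * T)) ∧ z ^ 2 = (p : ℂ)} := by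
  refine adjoin.mono ℚ _ _ ?_ (mem_of_height_le hx hT)
  rintro z ⟨a, ha, hz⟩
  rcases Finset.mem_insert.1 ha with rfl | ha
  · exact Or.inl (by simpa using hz)
  · obtain ⟨p, hp, rfl⟩ := Finset.mem_image.1 ha
    obtain ⟨hpr, hpp⟩ := Finset.mem_filter.1 hp
    refine Or.inr ⟨p, hpp, ?_, by simpa using hz⟩
    have h : p ≤ primeBound T := Nat.lt_succ_iff.1 (Finset.mem_range.1 hpr)
    rcases le_max_iff.1 h with h | h
    · exact le_max_of_le_left (by exact_mod_cast h)
    · exact le_max_of_le_right ((Nat.cast_le.2 h).trans (Nat.floor_le (by positivity)))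

/-- **Bombieri and Zannier.** The compositum of all quadratic fields has the Northcott property. -/
theorem northcott (T : ℝ) : {x : ℂ | x ∈ quadraticCompositum ∧ algHeight x ≤ T}.Finite := by
  classical
  haveI : NumberField (sqrtField (smallSet (primeBound T))) := {}
  set D := Module.finrank ℚ (sqrtField (smallSet (primeBound T)))
  refine ((Northcott.finite_le (h := (Height.logHeight₁ :
    sqrtField (smallSet (primeBound T)) → ℝ)) ((D : ℝ) ^ 2 * T)).image
      (fun a : sqrtField (smallSet (primeBound T)) => (a : ℂ))).subset ?_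
  rintro x ⟨hx, hT⟩
  refine ⟨⟨x, mem_of_height_le hx hT⟩, ?_, rfl⟩
  obtain ⟨q, hq, hqx⟩ := exists_irreducible (x := x)
    ((IsIntegral.of_finite ℚ (⟨x, mem_of_height_le hx hT⟩ :
      sqrtField (smallSet (primeBound T)))).isAlgebraic.algHom
        (sqrtField (smallSet (primeBound T))).val)
  have hsum := sum_logHeight₁ (⟨x, mem_of_height_le hx hT⟩ :
    sqrtField (smallSet (primeBound T))) hq hqx
  refine (le_trans ?_ (hsum.le.trans (mul_le_mul_of_nonneg_left hT (by positivity))) : _)
  exact Finset.single_le_sum (f := fun g : sqrtField (smallSet (primeBound T)) ≃ₐ[ℚ]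
      sqrtField (smallSet (primeBound T)) => Height.logHeight₁ (g ⟨x, mem_of_height_le hx hT⟩))
    (fun g _ => Height.zero_le_logHeight₁ _) (Finset.mem_univ 1)

/-- Only finitely many integers of the compositum have all conjugates in a given disc. -/
theorem finite_integers_bounded (B : ℝ) :
    {x : ℂ | x ∈ quadraticCompositum ∧ IsIntegral ℤ x ∧
      ∀ y ∈ (minpoly ℚ x).aroots ℂ, ‖y‖ ≤ B}.Finite := by
  refine (northcott (Real.log (max 1 B))).subset ?_
  rintro x ⟨hx, hint, hB⟩
  refine ⟨hx, ?_⟩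
  have hm := minpoly.monic hint
  rw [algHeight_eq (minpoly.irreducible hint) (minpoly.aeval ℤ x),
    div_le_iff₀ (by exact_mod_cast minpoly.natDegree_pos hint), logM, mul_comm, ← Real.log_pow]
  have hmap : (minpoly ℤ x).map (Int.castRingHom ℂ) =
      (minpoly ℚ x).map (algebraMap ℚ ℂ) := by
    rw [minpoly.isIntegrallyClosed_eq_field_fractions' ℚ hint, Polynomial.map_map]
    congr 1
  rw [mahlerMeasure_eq_leadingCoeff_mul_prod_roots, (hm.map _).leadingCoeff, norm_one, one_mul,
    hmap, show ((minpoly ℚ x).map (algebraMap ℚ ℂ)).roots = (minpoly ℚ x).aroots ℂ from rfl]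
  refine Real.log_le_log ?_ ?_
  · refine lt_of_lt_of_le one_pos (Multiset.one_le_prod ?_)
    intro v hv
    obtain ⟨a, -, rfl⟩ := Multiset.mem_map.1 hv
    exact le_max_left _ _
  · refine (Multiset.prod_map_le_prod_map₀ _ (fun _ => max 1 B) (fun a _ => by positivity)
      fun a ha => max_le_max le_rfl (hB a ha)).trans (le_of_eq ?_)
    rw [Multiset.map_const', Multiset.prod_replicate]
    congr 1
    rw [aroots, IsAlgClosed.card_roots_eq_natDegree, ← hmap,
      natDegree_map_eq_of_injective (Int.castRingHom ℂ).injective_int]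

end FA.QuadraticNorthcott

end
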